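/-
S32lib / Bridge  (helper1): the statement of S19 in the two forms used by the S32 add-on.

* `S19Stmt`    : the form consumed by `Lat/Torsion.hasFlatModel_quot` (`HasFlatModel` of
  `Tors N (ℓ ^ k)` with the action `galTors`);
* `S19Literal` : the literal type of the frozen statement S19;
* `s19Stmt_of_literal` : the transport (`((ℓ ^ k : ℕ) : ℤ) = (ℓ : ℤ) ^ k`).
-/
import Mathlib
import Fermat.Prelude.Def_ModularCurve_ArithmeticGalois
import Fermat.Prelude.Def_GaloisRep_Flat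
import Fermat.Agent.S32lib.FM.Sub
import Fermat.Agent.S29lib.E.Transport

set_option autoImplicit false
set_option linter.unusedSectionVars false

noncomputable section

namespace Fermat.Agent.S32lib

open Fermat.Agent.S29lib Fermat.Agent.S29lib.E

/-- the statement of S19, in the form consumed by `Lat/Torsion.hasFlatModel_quot`. -/
def S19Stmt : Prop := ∀ (N : ℕ) [NeZero N] (ℓ : ℕ) [Fact ℓ.Prime], ¬ ℓ ∣ N → ∀ k : ℕ,
  HasFlatModel ℓ (Tors N (ℓ ^ k)) (fun σ x => galTors (ℓ ^ k) σ x)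

/-- the literal frozen type of `Fermat.Agent.S19.result`. -/
def S19Literal : Prop := ∀ (p : ℕ) [NeZero p] (ℓ : ℕ) [Fact ℓ.Prime] (_ : ¬ ℓ ∣ p) (k : ℕ),
    ∃ (H : Type) (_ : CommRing H) (_ : HopfAlgebra (GaloisRep.ratLocalizedAt ℓ) H),
      Module.Finite (GaloisRep.ratLocalizedAt ℓ) H ∧ Module.Flat (GaloisRep.ratLocalizedAt ℓ) H ∧
      Coalgebra.IsCocomm (GaloisRep.ratLocalizedAt ℓ) H ∧
      ∃ e : WithConv (H →ₐ[GaloisRep.ratLocalizedAt ℓ] AlgebraicClosure ℚ) ≃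
          ↥(Submodule.torsionBy ℤ (ModularCurve.JZero p) ((ℓ : ℤ) ^ k)),
        (∀ f g, e (f * g) = e f + e g) ∧
        ∀ (σ : AlgebraicClosure ℚ ≃ₐ[ℚ] AlgebraicClosure ℚ)
          (f g : WithConv (H →ₐ[GaloisRep.ratLocalizedAt ℓ] AlgebraicClosure ℚ)),
          (∀ h : H, g h = σ (f h)) → ((e g : ModularCurve.JZero p)) = σ • (e f : ModularCurve.JZero p)

/-- the two torsion submodules agree -/
theorem torsionBy_pow_eq (N : ℕ) [NeZero N] (ℓ k : ℕ) :
    Submodule.torsionBy ℤ (ModularCurve.JZero N) ((ℓ : ℤ) ^ k) = Tors N (ℓ ^ k) := by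
  show _ = Submodule.torsionBy ℤ (ModularCurve.JZero N) ((ℓ ^ k : ℕ) : ℤ)
  rw [Nat.cast_pow]

/-- the identity, as an additive equivalence between the two torsion types -/
def torsEquiv (N : ℕ) [NeZero N] (ℓ k : ℕ) :
    ↥(Submodule.torsionBy ℤ (ModularCurve.JZero N) ((ℓ : ℤ) ^ k)) ≃+ Tors N (ℓ ^ k) where
  toFun x := ⟨x.1, by rw [← torsionBy_pow_eq]; exact x.2⟩
  invFun x := ⟨x.1, by rw [torsionBy_pow_eq]; exact x.2⟩
  left_inv _ := rfl
  right_inv _ := rfl
  map_add' _ _ := rfl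

theorem s19Stmt_of_literal (h : S19Literal) : S19Stmt := by
  intro N _ ℓ _ hℓN k
  obtain ⟨H, i1, i2, h1, h2, h3, e, hadd, hgal⟩ := h N ℓ hℓN k
  refine ⟨H, i1, i2, h1, h2, h3, e.trans (torsEquiv N ℓ k).toEquiv, ?_, ?_⟩
  · intro f g
    show torsEquiv N ℓ k (e (f * g)) = torsEquiv N ℓ k (e f) + torsEquiv N ℓ k (e g)
    rw [hadd, map_add]
  · intro σ f g hfg
    apply Subtype.ext
    exact hgal σ f g hfg

end Fermat.Agent.S32lib
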