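/-
S32lib / Main (helper8): **S32 from the statement of S19.**
`isFlatAt_of_s19 : S19Literal → (hypotheses of S32) → H.ρ.IsFlatAt p`, where `S19Literal` is verbatim
the frozen type of `Fermat.Agent.S19.result`.  So `S32.result` is
`isFlatAt_of_s19 Fermat.Agent.S19.result hp hp2 hp𝒪 hpN hpS hNS H`.

Route: enough characters `ψ_k : T → O₁` (`Chars/Main`, from the reducedness of the anemic Hecke
algebra), the per-character pieces (`Lat/Piece`), and the combination step (`Comb/Main`, helper1).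
-/
import Fermat.Agent.S32lib.Lat.Piece
import Fermat.Agent.S32lib.Chars.Main
import Fermat.Agent.S32lib.Comb.Main
import Fermat.Agent.S32lib.Bridge
import Fermat.Agent.S31lib.PET.Main
import Fermat.Agent.S22

set_option autoImplicit false
set_option linter.unusedSectionVars false
set_option linter.style.haveILetI false

noncomputable section

namespace Fermat.Agent.S32lib

open IsLocalRing CuspForm

variable {p : ℕ} {N : ℕ} [NeZero N] {S : Finset ℕ}
  {𝒪 : Type} [CommRing 𝒪] [IsDomain 𝒪] [IsDiscreteValuationRing 𝒪]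
  [IsAdicComplete (IsLocalRing.maximalIdeal 𝒪) 𝒪]
  {θ : CuspForm.heckeAlgebra N 2 (↑S : Set ℕ) →+* IsLocalRing.ResidueField 𝒪}
  {T : Type} [CommRing T] [IsLocalRing T] [IsNoetherianRing T]
  [IsAdicComplete (IsLocalRing.maximalIdeal T) T] [Algebra 𝒪 T] [IsLocalHom (algebraMap 𝒪 T)]
  [Module.Finite 𝒪 T] [Module.Free 𝒪 T]

/-- **S32 from the statement of S19.** -/
theorem isFlatAt_of_s19 (h19 : S19Literal)
    [Finite (IsLocalRing.ResidueField 𝒪)] [CharZero 𝒪]
    (hp : p.Prime) (_hp2 : p ≠ 2) (hp𝒪 : (p : 𝒪) ∈ IsLocalRing.maximalIdeal 𝒪) (hpN : ¬ p ∣ N)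
    (hpS : p ∈ S) (hNS : ∀ q : ℕ, q.Prime → q ∣ N → q ∈ S)
    (H : CuspForm.HeckeGaloisRepDatum N (↑S : Set ℕ) 𝒪 θ T) :
    H.ρ.IsFlatAt p := by
  classical
  haveI : Fact p.Prime := ⟨hp⟩
  -- S19 at level `N` and the prime `p`
  have h19' : ∀ n : ℕ, HasFlatModel p (Fermat.Agent.S29lib.Tors N (p ^ n))
      (fun σ x => Fermat.Agent.S29lib.E.galTors (p ^ n) σ x) :=
    fun n => s19Stmt_of_literal h19 N p hpN n
  -- enough characters
  haveI : IsReduced ↥(CuspForm.heckeAlgebra N 2 (↑S : Set ℕ)) :=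
    Fermat.Agent.S31lib.PET.isReduced_heckeAlgebra' (fun q hq hqN => Finset.mem_coe.mpr (hNS q hq hqN))
  haveI : Module.Finite ℤ ↥(CuspForm.heckeAlgebra N 2 (↑S : Set ℕ)) :=
    Fermat.Agent.S22.result N 2 (↑S : Set ℕ)
  obtain ⟨κ, hκ, O₁, i1, i2, i3, i4, i5, i6, i7, i8, i9, hinj, ψ, hψ⟩ :=
    exists_characters_dvr H.π H.adjoin_range_π
  -- the pieces
  have hpieces : ∀ (k : κ) (m : ℕ),
      FlatLevel p H.ρ (RingHom.ker (ψ k) ⊔ Ideal.span {(p : T) ^ m}) :=
    fun k m => hasFlatModel_piece hp hp𝒪 hpS hNS H h19' (ψ k) m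
  have hpT : (p : T) ∈ maximalIdeal T := by
    have h1 : (p : T) = algebraMap 𝒪 T (p : 𝒪) := (map_natCast _ p).symm
    rw [h1]
    exact map_nonunit (algebraMap 𝒪 T) _ hp𝒪
  exact isFlatAt_of_flatLevel (finite_residueField_of_surjective H.residue_surjective)
    (flatLevel_of_pieces hpT ψ hψ hpieces)

end Fermat.Agent.S32lib
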